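import Fermat.Agent.Superposition.Main

/-!
# Superpositions on the real line: Hilbert's thirteenth problem and basic embeddings
-/

set_option autoImplicit false

noncomputable section

namespace FA.Superposition

open Finset Topology
open scoped unitInterval BoundedContinuousFunction

variable {n : ℕ}

/-- The theorem for functions continuous on the cube of `ℝ ^ n`. -/
theorem exists_inner_real (n : ℕ) : ∃ (lam : Fin n → ℝ) (φ : Fin (2 * n + 1) → ℝ → ℝ),
    (∀ p, 0 < lam p) ∧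
    (∀ q, Continuous (φ q) ∧ StrictMonoOn (φ q) (Set.Icc 0 1) ∧
      ∀ x, φ q x ∈ Set.Icc (0 : ℝ) 1) ∧
    ∀ f : (Fin n → ℝ) → ℝ, ContinuousOn f (Set.univ.pi fun _ => Set.Icc (0 : ℝ) 1) →
      ∃ g : ℝ → ℝ, Continuous g ∧ ∀ x : Fin n → ℝ, (∀ p, x p ∈ Set.Icc (0 : ℝ) 1) →
        f x = ∑ q, g (∑ p, lam p * φ q (x p)) := by
  obtain ⟨lam, φ, hlam, hφ, hrep⟩ := exists_inner n
  refine ⟨lam, fun q => Set.IccExtend zero_le_one (φ q), hlam, fun q => ⟨?_, ?_, fun x => ?_⟩, ?_⟩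
  · exact (φ q).continuous.Icc_extend'
  · intro a ha b hb hab
    beta_reduce
    rw [Set.IccExtend_of_mem _ _ ha, Set.IccExtend_of_mem _ _ hb]
    exact (hφ q).1 (show (⟨a, ha⟩ : I) < ⟨b, hb⟩ from hab)
  · exact (hφ q).2 _
  intro f hf
  obtain ⟨g, hg⟩ := hrep ⟨fun x => f fun p => (x p : ℝ),
    hf.comp_continuous (by fun_prop) fun x p _ => (x p).2⟩
  refine ⟨g, g.continuous, fun x hx => ?_⟩
  have h := hg fun p => ⟨x p, hx p⟩
  simp only [ContinuousMap.coe_mk] at h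
  rw [← h]
  exact sum_congr rfl fun q _ => congrArg g (sum_congr rfl fun p _ => by
    beta_reduce
    rw [Set.IccExtend_of_mem _ _ (hx p)])

/-- **Hilbert's thirteenth problem**: functions of three variables from functions of two. -/
theorem exists_binary (f : (Fin 3 → ℝ) → ℝ)
    (hf : ContinuousOn f (Set.univ.pi fun _ => Set.Icc (0 : ℝ) 1)) :
    ∃ A B : Fin 7 → ℝ × ℝ → ℝ, (∀ q, Continuous (A q) ∧ Continuous (B q)) ∧
      ∀ x : Fin 3 → ℝ, (∀ p, x p ∈ Set.Icc (0 : ℝ) 1) →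
        f x = ∑ q, B q (A q (x 0, x 1), x 2) := by
  obtain ⟨lam, φ, -, hφ, hrep⟩ := exists_inner_real 3
  obtain ⟨g, hg, hgf⟩ := hrep f hf
  refine ⟨fun q v => lam 0 * φ q v.1 + lam 1 * φ q v.2, fun q v => g (v.1 + lam 2 * φ q v.2),
    fun q => ⟨?_, ?_⟩, fun x hx => ?_⟩
  · exact ((hφ q).1.comp continuous_fst |>.const_mul _).add
      ((hφ q).1.comp continuous_snd |>.const_mul _)
  · exact hg.comp (continuous_fst.add ((hφ q).1.comp continuous_snd |>.const_mul _))
  · rw [hgf x hx]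
    exact sum_congr rfl fun q _ => by rw [Fin.sum_univ_three]

/-- **A basic embedding** of the cube in `ℝ ^ (2 n + 1)`. -/
theorem exists_basic_embedding (n : ℕ) :
    ∃ e : (Fin n → I) → Fin (2 * n + 1) → ℝ, IsClosedEmbedding e ∧
      ∀ f : C(Fin n → I, ℝ), ∃ g : ℝ →ᵇ ℝ, ∀ x, ∑ q, g (e x q) = f x := by
  obtain ⟨lam, φ, -, -, hrep⟩ := exists_inner n
  have hc : Continuous fun (x : Fin n → I) q => ∑ p, lam p * φ q (x p) := by fun_prop
  refine ⟨_, hc.isClosedEmbedding fun x y h => funext fun p => Subtype.ext ?_, hrep⟩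
  obtain ⟨g, hg⟩ := hrep ⟨fun z => (z p : ℝ), by fun_prop⟩
  have h1 := hg x
  rw [show (fun q => g (∑ p, lam p * φ q (x p))) = fun q => g (∑ p, lam p * φ q (y p)) from
    funext fun q => congrArg g (congrFun h q), hg y] at h1
  exact h1.symm

end FA.Superposition

end
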