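import Mathlib.Topology.UnitInterval
import Mathlib.Algebra.Order.Floor.Semiring
import Mathlib.Algebra.BigOperators.Intervals
import Mathlib.Data.Rat.Floor
import Mathlib.Analysis.SpecificLimits.Basic

/-!
# Shifted grids on the unit interval

With `Q` shifts every point of `[0, 1]` lies in a gap of at most one grid; the monotone function of
a shift is constant, with a rational value of given label, on each block.
-/

set_option autoImplicit false

noncomputable section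

namespace FA.Superposition

open Finset
open scoped unitInterval

/-- The ramp from `0` at `0` to `1` at `1`. -/
def ramp (t : ℝ) : ℝ := max 0 (min 1 t)

theorem continuous_ramp : Continuous ramp := by unfold ramp; fun_prop

theorem ramp_nonneg (t : ℝ) : 0 ≤ ramp t := le_max_left _ _

theorem ramp_le_one (t : ℝ) : ramp t ≤ 1 := max_le zero_le_one (min_le_left _ _)

theorem ramp_of_nonpos {t : ℝ} (h : t ≤ 0) : ramp t = 0 :=
  max_eq_left ((min_le_right _ _).trans h)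

theorem ramp_of_one_le {t : ℝ} (h : 1 ≤ t) : ramp t = 1 := by
  rw [ramp, min_eq_left h, max_eq_right zero_le_one]

theorem ramp_mono : Monotone ramp := fun _ _ h => max_le_max le_rfl (min_le_min le_rfl h)

variable (N Q : ℕ)

/-- The number of the block containing `x`, for the shift `q`. -/
def blockIdx (q : ℕ) (x : ℝ) : ℕ := ⌊(x * N + Q - q - 1) / Q⌋₊

/-- `x` lies in a gap of the shift `q`. -/
def InGap (q : ℕ) (x : ℝ) : Prop := ⌊x * N⌋₊ % Q = q ∧ (⌊x * N⌋₊ : ℝ) < x * N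

/-- The piecewise linear function with value `c j` on the block `j`. -/
def steps (q : ℕ) (c : ℕ → ℝ) (x : ℝ) : ℝ :=
  c 0 + ∑ j ∈ range (N + 1), (c (j + 1) - c j) * ramp (x * N - (Q * j + q : ℕ))

variable {N Q} {q : ℕ} {x : ℝ}

theorem continuous_steps (c : ℕ → ℝ) : Continuous (steps N Q q c) := by
  unfold steps
  have := continuous_ramp
  fun_prop

theorem steps_monotone {c : ℕ → ℝ} (hc : Monotone c) : Monotone (steps N Q q c) := fun x y h => by
  refine add_le_add_right (sum_le_sum fun j _ => mul_le_mul_of_nonneg_left (ramp_mono ?_)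
    (sub_nonneg.2 (hc j.le_succ))) _
  exact sub_le_sub_right (mul_le_mul_of_nonneg_right h (Nat.cast_nonneg N)) _

theorem blockIdx_bounds (hq : q < Q) (hx : 0 ≤ x) :
    (Q : ℝ) * blockIdx N Q q x + q + 1 - Q ≤ x * N ∧
      x * N < (Q : ℝ) * blockIdx N Q q x + q + 1 := by
  have hQ : (0 : ℝ) < Q := Nat.cast_pos.2 (by omega)
  have hq' : (q : ℝ) + 1 ≤ Q := by exact_mod_cast hq
  have h0 : 0 ≤ (x * N + Q - q - 1) / Q := by
    refine div_nonneg ?_ hQ.le
    nlinarith [mul_nonneg hx (Nat.cast_nonneg N : (0 : ℝ) ≤ N)]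
  have h1 := Nat.floor_le h0
  have h2 := Nat.lt_floor_add_one ((x * N + Q - q - 1) / Q)
  rw [le_div_iff₀ hQ] at h1
  rw [div_lt_iff₀ hQ] at h2
  simp only [blockIdx]
  constructor <;> nlinarith

theorem blockIdx_le (hq : q < Q) (hx : x ∈ Set.Icc (0 : ℝ) 1) : blockIdx N Q q x ≤ N := by
  have h1 := (blockIdx_bounds (N := N) hq hx.1).1
  by_contra h
  have h2 : (N : ℝ) + 1 ≤ blockIdx N Q q x := by exact_mod_cast Nat.lt_of_not_le h
  have h3 : (1 : ℝ) ≤ Q := by exact_mod_cast (by omega : 1 ≤ Q)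
  nlinarith [hx.2, (Nat.cast_nonneg q : (0 : ℝ) ≤ q), (Nat.cast_nonneg N : (0 : ℝ) ≤ N),
    mul_le_mul_of_nonneg_left h2 (zero_le_one.trans h3)]

/-- The value on a block, and between two blocks. -/
theorem steps_eq (hq : q < Q) (hx : x ∈ Set.Icc (0 : ℝ) 1) (c : ℕ → ℝ) :
    steps N Q q c x = c (blockIdx N Q q x) + (c (blockIdx N Q q x + 1) - c (blockIdx N Q q x)) *
      ramp (x * N - (Q * blockIdx N Q q x + q : ℕ)) := by
  obtain ⟨hl, hu⟩ := blockIdx_bounds (N := N) hq hx.1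
  set j₀ := blockIdx N Q q x
  have hj₀ : j₀ ≤ N := blockIdx_le hq hx
  rw [steps, ← sum_range_add_sum_Ico _ (show j₀ ≤ N + 1 by omega),
    sum_eq_sum_Ico_succ_bot (show j₀ < N + 1 by omega)]
  have h1 : ∀ j ∈ range j₀, (c (j + 1) - c j) * ramp (x * N - (Q * j + q : ℕ)) =
      c (j + 1) - c j := fun j hj => by
    rw [ramp_of_one_le, mul_one]
    have h2 : ((Q * j + q + Q : ℕ) : ℝ) ≤ (Q * j₀ + q : ℕ) := by
      have := mem_range.1 hj
      exact_mod_cast (by nlinarith : Q * j + q + Q ≤ Q * j₀ + q)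
    push_cast at h2 ⊢
    linarith
  have h3 : ∀ j ∈ Ico (j₀ + 1) (N + 1),
      (c (j + 1) - c j) * ramp (x * N - (Q * j + q : ℕ)) = 0 := fun j hj => by
    rw [ramp_of_nonpos, mul_zero]
    have h4 : ((Q * j₀ + q + 1 : ℕ) : ℝ) ≤ (Q * j + q : ℕ) := by
      have := (mem_Ico.1 hj).1
      exact_mod_cast (by nlinarith : Q * j₀ + q + 1 ≤ Q * j + q)
    push_cast at h4 ⊢
    linarith
  rw [sum_congr rfl h1, sum_range_sub, sum_eq_zero h3]
  ring

/-- **Outside the gaps the function is constant on blocks.** -/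
theorem steps_eq_block (hq : q < Q) (hx : x ∈ Set.Icc (0 : ℝ) 1) (h : ¬InGap N Q q x)
    (c : ℕ → ℝ) : steps N Q q c x = c (blockIdx N Q q x) := by
  rw [steps_eq hq hx, ramp_of_nonpos, mul_zero, add_zero]
  by_contra hlt
  have hu := (blockIdx_bounds (N := N) hq hx.1).2
  refine h ?_
  have hfl : ⌊x * N⌋₊ = Q * blockIdx N Q q x + q := by
    rw [Nat.floor_eq_iff (mul_nonneg hx.1 (Nat.cast_nonneg _))]
    push_cast at hlt ⊢
    constructor <;> linarith
  refine ⟨by rw [hfl, Nat.mul_add_mod, Nat.mod_eq_of_lt hq], ?_⟩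
  rw [hfl]
  linarith

theorem steps_mem {c : ℕ → ℝ} (hc : Monotone c) (hq : q < Q) (hx : x ∈ Set.Icc (0 : ℝ) 1) :
    c (blockIdx N Q q x) ≤ steps N Q q c x ∧ steps N Q q c x ≤ c (blockIdx N Q q x + 1) := by
  rw [steps_eq hq hx]
  have h1 := ramp_nonneg (x * N - (Q * blockIdx N Q q x + q : ℕ))
  have h2 := ramp_le_one (x * N - (Q * blockIdx N Q q x + q : ℕ))
  have h3 := sub_nonneg.2 (hc (blockIdx N Q q x).le_succ)
  constructor <;> nlinarith

variable (N Q)

/-- The point of a block. -/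
def blockPoint (q j : ℕ) : I := Set.projIcc (0 : ℝ) 1 zero_le_one ((Q * j + q : ℕ) / N)

theorem blockPoint_mono (q : ℕ) : Monotone (blockPoint N Q q) := fun _ _ h =>
  Set.monotone_projIcc _ (div_le_div_of_nonneg_right
    (Nat.cast_le.2 (Nat.add_le_add_right (Nat.mul_le_mul_left Q h) q)) (Nat.cast_nonneg N))

variable {N Q}

theorem dist_blockPoint (hN : 0 < N) (hq : q < Q) (x : I) {j : ℕ}
    (hj : blockIdx N Q q x ≤ j) (hj' : j ≤ blockIdx N Q q x + 1) :
    dist (blockPoint N Q q j) x ≤ 2 * Q / N := by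
  obtain ⟨hl, hu⟩ := blockIdx_bounds (N := N) hq x.2.1
  have hN' : (0 : ℝ) < N := Nat.cast_pos.2 hN
  have h1 : |((Q * j + q : ℕ) : ℝ) / N - x| ≤ 2 * Q / N := by
    rw [div_sub' hN'.ne', abs_div, abs_of_pos hN', div_le_div_iff_of_pos_right hN', abs_le]
    have h2 : (blockIdx N Q q x : ℝ) ≤ j := Nat.cast_le.2 hj
    have h3 : (j : ℝ) ≤ blockIdx N Q q x + 1 := by exact_mod_cast hj'
    have hQ : (0 : ℝ) ≤ Q := Nat.cast_nonneg _
    have hQ1 : (1 : ℝ) ≤ Q := by exact_mod_cast (by omega : 1 ≤ Q)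
    push_cast
    constructor <;> nlinarith [mul_le_mul_of_nonneg_left h2 hQ, mul_le_mul_of_nonneg_left h3 hQ]
  refine le_trans ?_ h1
  rw [Subtype.dist_eq, Real.dist_eq]
  set t : ℝ := ((Q * j + q : ℕ) : ℝ) / N
  have h0 : 0 ≤ t := div_nonneg (Nat.cast_nonneg _) hN'.le
  rcases le_total t 1 with ht | ht
  · rw [blockPoint, Set.projIcc_of_mem zero_le_one ⟨h0, ht⟩]
  · rw [blockPoint, Set.projIcc_of_right_le zero_le_one ht, abs_of_nonneg (sub_nonneg.2 x.2.2),
      abs_of_nonneg (sub_nonneg.2 (x.2.2.trans ht))]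
    linarith

/-- Rational values near `a`, increasing in `j`, with the label `(q, j)`. -/
def label (N Q K : ℕ) (a : ℕ → ℝ) (q j : ℕ) : ℚ :=
  ((⌊K * a j⌋₊ * ((N + 2) * Q + 1) + (j * Q + q + 1) : ℕ) : ℚ) /
    (((K + 2) * ((N + 2) * Q + 1) : ℕ) : ℚ)

theorem label_mono {K : ℕ} {a : ℕ → ℝ} (ha : Monotone a) (q : ℕ) :
    Monotone fun j => (label N Q K a q j : ℝ) := fun i j h => by
  have h1 : ⌊(K : ℝ) * a i⌋₊ ≤ ⌊(K : ℝ) * a j⌋₊ :=
    Nat.floor_le_floor (mul_le_mul_of_nonneg_left (ha h) (Nat.cast_nonneg _))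
  refine Rat.cast_le.2 (div_le_div_of_nonneg_right (Nat.cast_le.2 ?_) (Nat.cast_nonneg _))
  gcongr

theorem label_inj {K : ℕ} {a a' : ℕ → ℝ} {q' j j' : ℕ} (hq : q < Q) (hq' : q' < Q)
    (hj : j ≤ N + 1) (hj' : j' ≤ N + 1) (h : label N Q K a q j = label N Q K a' q' j') :
    q = q' ∧ j = j' := by
  have hS : ((((K + 2) * ((N + 2) * Q + 1) : ℕ)) : ℚ) ≠ 0 := Nat.cast_ne_zero.2 (by positivity)
  rw [label, label, div_left_inj' hS, Nat.cast_inj] at h
  have hlt : ∀ {i k : ℕ}, k < Q → i ≤ N + 1 → i * Q + k + 1 < (N + 2) * Q + 1 :=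
    fun {i k} hk hi => by nlinarith
  have h1 := congrArg (· % ((N + 2) * Q + 1)) h
  simp only [Nat.mul_add_mod', Nat.mod_eq_of_lt (hlt hq hj), Nat.mod_eq_of_lt (hlt hq' hj')] at h1
  have h2 : q + j * Q = q' + j' * Q := by omega
  have h3 := congrArg (· % Q) h2
  simp only [Nat.add_mul_mod_self_right, Nat.mod_eq_of_lt hq, Nat.mod_eq_of_lt hq'] at h3
  exact ⟨h3, Nat.eq_of_mul_eq_mul_right (by omega) (by omega : j * Q = j' * Q)⟩

theorem label_bounds {K : ℕ} {a : ℕ → ℝ} {j : ℕ} (hq : q < Q) (hj : j ≤ N + 1)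
    (ha : a j ∈ Set.Icc (0 : ℝ) 1) :
    (label N Q K a q j : ℝ) ∈ Set.Icc (0 : ℝ) 1 ∧
      |(label N Q K a q j : ℝ) - a j| ≤ 3 / (K + 2) := by
  set m := ⌊(K : ℝ) * a j⌋₊
  have h0 := Nat.floor_le (mul_nonneg (Nat.cast_nonneg K) ha.1)
  have h1 := Nat.lt_floor_add_one ((K : ℝ) * a j)
  have hr : ((j * Q + q + 1 : ℕ) : ℝ) ≤ ((N + 2) * Q + 1 : ℕ) :=
    Nat.cast_le.2 (by nlinarith)
  have hK : (0 : ℝ) < K + 2 := by positivity
  have e : (label N Q K a q j : ℝ) =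
      (m + ((j * Q + q + 1 : ℕ) : ℝ) / ((N + 2) * Q + 1 : ℕ)) / (K + 2) := by
    rw [label]
    push_cast
    field_simp
    ring
  set u := ((j * Q + q + 1 : ℕ) : ℝ) / ((N + 2) * Q + 1 : ℕ)
  have hu0 : 0 ≤ u := by positivity
  have hu1 : u ≤ 1 := div_le_one_of_le₀ hr (Nat.cast_nonneg _)
  have hKa : (K : ℝ) * a j ≤ K := mul_le_of_le_one_right (Nat.cast_nonneg _) ha.2
  rw [e]
  refine ⟨⟨by positivity, ?_⟩, ?_⟩
  · rw [div_le_one hK]; linarith
  · rw [div_sub' hK.ne', abs_div, abs_of_pos hK, div_le_div_iff_of_pos_right hK, abs_le]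
    constructor <;> nlinarith [ha.1, ha.2]

end FA.Superposition

end
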