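import Fermat.Agent.Superposition.Grid
import Mathlib.Topology.TietzeExtension
import Mathlib.Topology.ContinuousMap.SecondCountableSpace
import Mathlib.Topology.ContinuousMap.Compact
import Mathlib.Topology.ContinuousMap.Bounded.Normed
import Mathlib.Topology.Baire.CompleteMetrizable
import Mathlib.Topology.Baire.Lemmas
import Mathlib.NumberTheory.Transcendental.Liouville.LiouvilleNumber
import Mathlib.RingTheory.Localization.Integral

/-!
# The superposition theorem of Kolmogorov and Arnold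

Kahane's proof: in the complete space of tuples of monotone functions the tuples that superpose a
given function up to a fixed factor are open and dense; a tuple in the intersection over a
countable dense set of functions superposes everything exactly, by geometric iteration.
-/

set_option autoImplicit false

noncomputable section

namespace FA.Superposition

open Finset Filter Topology
open scoped unitInterval BoundedContinuousFunction

variable {n : ℕ}

/-- `x ↦ ∑ λ p φ (x p)`. -/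
def innerMap (lam : Fin n → ℝ) (φ : C(I, ℝ)) : C(Fin n → I, ℝ) :=
  ∑ p, lam p • φ.comp ⟨fun x => x p, continuous_apply p⟩

theorem innerMap_apply (lam : Fin n → ℝ) (φ : C(I, ℝ)) (x : Fin n → I) :
    innerMap lam φ x = ∑ p, lam p * φ (x p) := by
  simp [innerMap]

/-- A tuple of inner functions. -/
abbrev Tuples (n : ℕ) : Type := Fin (2 * n + 1) → C(I, ℝ)

/-- Monotone functions into the unit interval. -/
def monotoneTuples (n : ℕ) : Set (Tuples n) :=
  {φ | ∀ q, Monotone (φ q) ∧ ∀ x, φ q x ∈ Set.Icc (0 : ℝ) 1}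

theorem isClosed_monotoneTuples : IsClosed (monotoneTuples n) := by
  have hev : ∀ q x, Continuous fun φ : Tuples n => φ q x := fun q x =>
    (continuous_eval_const x).comp (continuous_apply q)
  simp only [monotoneTuples, Monotone, Set.ofPred_forall, Set.ofPred_and]
  refine isClosed_iInter fun q => IsClosed.inter ?_ ?_
  · exact isClosed_iInter fun a => isClosed_iInter fun b => isClosed_iInter fun _ =>
      isClosed_le (hev q a) (hev q b)
  · exact isClosed_iInter fun x => isClosed_Icc.preimage (hev q x)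

/-- The tuples, as a complete metric space. -/
abbrev Space (n : ℕ) : Type := monotoneTuples n

instance : CompleteSpace (Space n) := isClosed_monotoneTuples.completeSpace_coe

/-- The superposition with outer function `g`. -/
def outer (lam : Fin n → ℝ) (φ : Tuples n) (g : ℝ →ᵇ ℝ) : C(Fin n → I, ℝ) :=
  ∑ q, g.toContinuousMap.comp (innerMap lam (φ q))

theorem outer_apply (lam : Fin n → ℝ) (φ : Tuples n) (g : ℝ →ᵇ ℝ) (x : Fin n → I) :
    outer lam φ g x = ∑ q, g (∑ p, lam p * φ q (x p)) := by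
  simp [outer, innerMap_apply]

theorem continuous_outer (lam : Fin n → ℝ) (g : ℝ →ᵇ ℝ) :
    Continuous fun φ : Tuples n => outer lam φ g := by
  refine continuous_finsetSum _ fun q _ => (ContinuousMap.continuous_postcomp _).comp ?_
  refine continuous_finsetSum _ fun p _ => Continuous.const_smul ?_ (lam p)
  exact (ContinuousMap.continuous_precomp _).comp (continuous_apply q)

/-- The contraction factor for one function. -/
def theta (n : ℕ) : ℝ := (2 * n + 1) / (2 * n + 2)

/-- The tuples superposing `f` up to the factor `theta n`. -/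
def good (lam : Fin n → ℝ) (f : C(Fin n → I, ℝ)) : Set (Space n) :=
  {φ | ∃ g : ℝ →ᵇ ℝ, ‖g‖ ≤ ‖f‖ ∧ ‖f - outer lam φ g‖ < theta n * ‖f‖}

theorem isOpen_good (lam : Fin n → ℝ) (f : C(Fin n → I, ℝ)) : IsOpen (good lam f) := by
  simp only [good, Set.ofPred_exists, Set.ofPred_and]
  refine isOpen_iUnion fun g => IsOpen.inter isOpen_const (isOpen_lt ?_ continuous_const)
  exact (continuous_const.sub ((continuous_outer lam g).comp continuous_subtype_val)).norm

/-- The weights are independent over the rationals. -/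
def Independent (lam : Fin n → ℝ) : Prop :=
  ∀ d : Fin n → ℚ, ∑ p, lam p * (d p : ℝ) = 0 → d = 0

theorem exists_independent (n : ℕ) : ∃ lam : Fin n → ℝ, (∀ p, 0 < lam p) ∧ Independent lam := by
  set t := liouvilleNumber (2 : ℕ)
  have ht : Transcendental ℚ t := fun h => transcendental_liouvilleNumber (m := 2) le_rfl
    ((IsFractionRing.isAlgebraic_iff ℤ ℚ ℝ).2 h)
  have ht0 : 0 < t := by
    have h2 : (1 : ℝ) < (2 : ℕ) := by norm_num
    rw [show t = liouvilleNumber (2 : ℕ) from rfl,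
      ← LiouvilleNumber.partialSum_add_remainder h2 0]
    refine add_pos_of_nonneg_of_pos (sum_nonneg fun i _ => ?_) (LiouvilleNumber.remainder_pos h2 0)
    positivity
  refine ⟨fun p => t ^ (p : ℕ), fun p => pow_pos ht0 _, fun d hd => ?_⟩
  set P : Polynomial ℚ := ∑ p : Fin n, Polynomial.C (d p) * Polynomial.X ^ (p : ℕ)
  have hP : P = 0 := by
    by_contra hP
    refine ht ⟨P, hP, ?_⟩
    simp only [P, map_sum, map_mul, map_pow, Polynomial.aeval_C, Polynomial.aeval_X, eq_ratCast]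
    rw [← hd]
    exact sum_congr rfl fun p _ => mul_comm _ _
  funext p
  have h := congrArg (fun R => Polynomial.coeff R (p : ℕ)) hP
  simpa [P, Polynomial.coeff_C_mul, Polynomial.coeff_X_pow, Fin.val_inj] using h

open scoped Classical in
theorem card_bad_le (N : ℕ) (x : Fin n → I) :
    ((univ : Finset (Fin (2 * n + 1))).filter
      fun q : Fin (2 * n + 1) => ∃ p, InGap N (2 * n + 1) q (x p)).card ≤ n := by
  classical
  refine (card_le_card (t := univ.image fun p : Fin n =>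
    (⟨⌊(x p : ℝ) * N⌋₊ % (2 * n + 1), Nat.mod_lt _ (by omega)⟩ : Fin (2 * n + 1)))
    fun q hq => ?_).trans (card_image_le.trans (le_of_eq (by rw [card_univ, Fintype.card_fin])))
  obtain ⟨p, hp⟩ := (mem_filter.1 hq).2
  exact mem_image.2 ⟨p, mem_univ _, Fin.ext hp.1⟩

/-- **The good tuples are dense.** -/
theorem dense_good {lam : Fin n → ℝ} (hlam : Independent lam) {f : C(Fin n → I, ℝ)}
    (hf : f ≠ 0) : Dense (good lam f) := by
  classical
  rw [Metric.dense_iff]
  intro φ r hr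
  set Q := 2 * n + 1
  set F := ‖f‖
  have hF : 0 < F := norm_pos_iff.2 hf
  set η := F / ((2 * n + 3) * Q)
  have hη : 0 < η := div_pos hF (mul_pos (by positivity) (Nat.cast_pos.2 (by omega)))
  obtain ⟨ρ, hρ, hfρ⟩ := Metric.uniformContinuous_iff.1
    (CompactSpace.uniformContinuous_of_continuous f.continuous) η hη
  have hall : ∀ q, ∃ s > 0, ∀ {a b : I}, dist a b < s → dist (φ.1 q a) (φ.1 q b) < r / 4 :=
    fun q => Metric.uniformContinuous_iff.1
      (CompactSpace.uniformContinuous_of_continuous (φ.1 q).continuous) _ (by positivity)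
  choose s hs hφs using hall
  set δ := min ρ (univ.inf' univ_nonempty s)
  have hδ : 0 < δ := lt_min hρ ((lt_inf'_iff _).2 fun q _ => hs q)
  obtain ⟨N, hNlt⟩ := exists_nat_gt (2 * (Q : ℝ) / δ)
  have hN : 0 < N := Nat.cast_pos.1 ((div_nonneg (by positivity) hδ.le).trans_lt hNlt)
  have hNδ : 2 * (Q : ℝ) / N < δ := by
    rw [div_lt_iff₀ hδ] at hNlt
    rw [div_lt_iff₀ (Nat.cast_pos.2 hN)]
    linarith
  obtain ⟨K, hK⟩ := exists_nat_gt (12 / r)
  have hK' : 3 / ((K : ℝ) + 2) < r / 4 := by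
    rw [div_lt_iff₀ hr] at hK
    rw [div_lt_iff₀ (by positivity)]
    linarith
  -- the new inner functions
  set a : Fin Q → ℕ → ℝ := fun q j => φ.1 q (blockPoint N Q q j)
  have ha : ∀ q, Monotone (a q) := fun q => (φ.2 q).1.comp (blockPoint_mono N Q q)
  set c : Fin Q → ℕ → ℝ := fun q j => (label N Q K (a q) q j : ℝ)
  have hc : ∀ q, Monotone (c q) := fun q => label_mono (ha q) q
  have hcb : ∀ (q : Fin Q) {j}, j ≤ N + 1 → c q j ∈ Set.Icc (0 : ℝ) 1 ∧
      |c q j - a q j| ≤ 3 / (K + 2) := fun q j hj => label_bounds q.2 hj ((φ.2 q).2 _)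
  set φ' : Tuples n := fun q => ⟨fun x => steps N Q q (c q) x,
    (continuous_steps (c q)).comp continuous_subtype_val⟩
  have hidx : ∀ (q : Fin Q) (x : I), blockIdx N Q q x + 1 ≤ N + 1 := fun q x =>
    Nat.succ_le_succ (blockIdx_le q.2 x.2)
  have hφ' : φ' ∈ monotoneTuples n := fun q => ⟨fun x y h => steps_monotone (hc q) h, fun x => by
    obtain ⟨h1, h2⟩ := steps_mem (N := N) (hc q) q.2 x.2
    exact ⟨(hcb q (Nat.le_succ_of_le (blockIdx_le q.2 x.2))).1.1.trans h1,
      h2.trans (hcb q (hidx q x)).1.2⟩⟩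
  have hnear : ∀ (q : Fin Q) (x : I), |φ' q x - φ.1 q x| ≤ r / 2 := fun q x => by
    obtain ⟨h1, h2⟩ := steps_mem (N := N) (hc q) q.2 x.2
    have hk : ∀ {j}, blockIdx N Q q x ≤ j → j ≤ blockIdx N Q q x + 1 →
        |c q j - φ.1 q x| ≤ r / 2 := fun {j} hj hj' => by
      have hd : dist (blockPoint N Q q j) x < s q :=
        (dist_blockPoint hN q.2 x hj hj').trans_lt
          (hNδ.trans_le ((min_le_right _ _).trans (inf'_le _ (mem_univ q))))
      have h3 := hφs q hd
      rw [Real.dist_eq] at h3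
      have h4 := (hcb q (hj'.trans (hidx q x))).2
      linarith [abs_sub_le (c q j) (a q j) (φ.1 q x)]
    obtain ⟨e1, e2⟩ := abs_le.1 (hk le_rfl (Nat.le_succ _))
    obtain ⟨e3, e4⟩ := abs_le.1 (hk (Nat.le_succ _) le_rfl)
    rw [show φ' q x = steps N Q q (c q) x from rfl, abs_le]
    constructor <;> linarith
  -- the outer function
  set e : Fin Q × (Fin n → Fin (N + 2)) → ℝ := fun y => ∑ p, lam p * c y.1 (y.2 p)
  have he : Function.Injective e := fun y y' h => by
    have h1 := hlam (fun p => label N Q K (a y.1) y.1 (y.2 p) -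
      label N Q K (a y'.1) y'.1 (y'.2 p)) (by
        push_cast
        simp only [mul_sub, sum_sub_distrib, sub_eq_zero]
        exact h)
    have h2 : ∀ p, (y.1 : ℕ) = y'.1 ∧ (y.2 p : ℕ) = y'.2 p := fun p =>
      label_inj y.1.2 y'.1.2 (Nat.le_of_lt_succ (y.2 p).2) (Nat.le_of_lt_succ (y'.2 p).2)
        (sub_eq_zero.1 (congrFun h1 p))
    refine Prod.ext (Fin.ext ?_) (funext fun p => Fin.ext (h2 p).2)
    rcases Nat.eq_zero_or_pos n with h0 | h0
    · have := y.1.2
      have := y'.1.2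
      omega
    · exact (h2 ⟨0, h0⟩).1
  set pt : Fin Q × (Fin n → Fin (N + 2)) → Fin n → I := fun y p => blockPoint N Q y.1 (y.2 p)
  set g₀ : (Fin Q × (Fin n → Fin (N + 2))) →ᵇ ℝ :=
    BoundedContinuousFunction.mkOfCompact ⟨fun y => f (pt y) / (n + 1),
      continuous_of_discreteTopology⟩
  obtain ⟨g, hg, hge⟩ := g₀.exists_extension_norm_eq_of_isClosedEmbedding
    ((continuous_of_discreteTopology (f := e)).isClosedEmbedding he)
  have hgF : ‖g‖ ≤ F / (n + 1) := by
    rw [hg, BoundedContinuousFunction.norm_le (by positivity)]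
    intro y
    show ‖f (pt y) / ((n : ℝ) + 1)‖ ≤ _
    rw [norm_div, Real.norm_of_nonneg (by positivity : (0 : ℝ) ≤ n + 1)]
    exact div_le_div_of_nonneg_right (f.norm_coe_le_norm _) (by positivity)
  refine ⟨⟨φ', hφ'⟩, Metric.mem_ball.2 ?_, g,
    hgF.trans (div_le_self hF.le (le_add_of_nonneg_left (Nat.cast_nonneg n))), ?_⟩
  · refine lt_of_le_of_lt ((dist_pi_le_iff (by positivity)).2 fun q =>
      (ContinuousMap.dist_le (by positivity)).2 fun x => ?_) (half_lt_self hr)
    rw [Real.dist_eq]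
    exact hnear q x
  have hbound : ∀ x, |f x - outer lam φ' g x| ≤ (n / (n + 1) : ℝ) * F + Q * η := fun x => by
    set bad := (univ : Finset (Fin Q)).filter fun q : Fin Q => ∃ p, InGap N Q q (x p)
    set ok := (univ : Finset (Fin Q)).filter fun q : Fin Q => ¬∃ p, InGap N Q q (x p)
    have hbad : bad.card ≤ n := by convert card_bad_le N x using 3
    have hcard : bad.card + ok.card = Q := by
      rw [card_filter_add_card_filter_not, card_univ, Fintype.card_fin]
    have hok : ∀ q ∈ ok, |f x / (n + 1) - g (∑ p, lam p * φ' q (x p))| ≤ η := fun q hq => by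
      have hgap : ∀ p, ¬InGap N Q q (x p) := not_exists.1 (mem_filter.1 hq).2
      set j : Fin n → Fin (N + 2) := fun p => ⟨blockIdx N Q q (x p), by
        have := blockIdx_le (N := N) q.2 (x p).2
        omega⟩
      have e1 : ∑ p, lam p * φ' q (x p) = e (q, j) := sum_congr rfl fun p _ => by
        rw [show φ' q (x p) = steps N Q q (c q) (x p) from rfl,
          steps_eq_block q.2 (x p).2 (hgap p)]
      rw [e1, show g (e (q, j)) = f (pt (q, j)) / (n + 1) from congrFun hge (q, j), ← sub_div,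
        abs_div, abs_of_pos (by positivity : (0 : ℝ) < n + 1)]
      refine (div_le_self (abs_nonneg _) (le_add_of_nonneg_left (Nat.cast_nonneg n))).trans ?_
      rw [← Real.dist_eq]
      refine (hfρ ((dist_comm _ _).trans_lt ?_)).le
      refine (dist_pi_lt_iff hρ).2 fun p => ?_
      exact (dist_blockPoint hN q.2 (x p) le_rfl (Nat.le_succ _)).trans_lt
        (hNδ.trans_le (min_le_left _ _))
    have hk : (n : ℝ) + 1 ≤ ok.card := by exact_mod_cast (by omega : n + 1 ≤ ok.card)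
    have hk' : (ok.card : ℝ) + bad.card = 2 * n + 1 := by
      exact_mod_cast (by omega : ok.card + bad.card = 2 * n + 1)
    have e2 : f x - outer lam φ' g x = f x * (1 - ok.card / (n + 1)) +
        ∑ q ∈ ok, (f x / (n + 1) - g (∑ p, lam p * φ' q (x p))) -
        ∑ q ∈ bad, g (∑ p, lam p * φ' q (x p)) := by
      rw [outer_apply, ← sum_filter_add_sum_filter_not univ
        (fun q : Fin Q => ∃ p, InGap N Q q (x p)), sum_sub_distrib, sum_const, nsmul_eq_mul]
      ring
    have b1 : |f x * (1 - ok.card / (n + 1))| ≤ F * (ok.card / (n + 1) - 1) := by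
      have h1 : 1 ≤ (ok.card : ℝ) / (n + 1) := by rwa [one_le_div (by positivity)]
      rw [abs_mul, abs_of_nonpos (sub_nonpos.2 h1), neg_sub]
      exact mul_le_mul_of_nonneg_right (f.norm_coe_le_norm x) (sub_nonneg.2 h1)
    have b2 := (abs_sum_le_sum_abs (fun q => f x / (n + 1) - g (∑ p, lam p * φ' q (x p))) ok).trans
      (sum_le_card_nsmul _ _ η hok)
    have b3 := (abs_sum_le_sum_abs (fun q => g (∑ p, lam p * φ' q (x p))) bad).trans
      (sum_le_card_nsmul _ _ (F / (n + 1)) fun q _ => (g.norm_coe_le_norm _).trans hgF)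
    rw [nsmul_eq_mul] at b2 b3
    have hQ : (ok.card : ℝ) * η ≤ Q * η :=
      mul_le_mul_of_nonneg_right (Nat.cast_le.2 (by omega)) hη.le
    have e3 : F * (ok.card / (n + 1) - 1) + bad.card * (F / (n + 1)) = n / (n + 1) * F := by
      field_simp
      linear_combination hk'
    rw [e2, sub_eq_add_neg]
    refine (abs_add_three _ _ _).trans ?_
    rw [abs_neg]
    linarith
  have hlt : (n / (n + 1) : ℝ) * F + Q * η < theta n * F := by
    have hQη : (Q : ℝ) * η = F / (2 * n + 3) := by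
      have hQ0 : (Q : ℝ) ≠ 0 := Nat.cast_ne_zero.2 (by omega)
      simp only [η]
      field_simp
    have h1 : theta n * F = (n / (n + 1) : ℝ) * F + F / (2 * n + 2) := by
      rw [theta]
      field_simp
    rw [h1, hQη]
    exact add_lt_add_of_le_of_lt le_rfl
      (div_lt_div_of_pos_left hF (by positivity) (by linarith))
  refine lt_of_le_of_lt ((ContinuousMap.norm_le _ ?_).2 hbound) hlt
  positivity

/-- **One tuple for all functions**: the good tuples contain a dense `G_δ`. -/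
theorem exists_residual {lam : Fin n → ℝ} (hlam : Independent lam) :
    ∃ S : Set (Space n), IsGδ S ∧ Dense S ∧ ∀ φ ∈ S, (∀ q, StrictMono (φ.1 q)) ∧
      ∀ f : C(Fin n → I, ℝ), ∃ g : ℝ →ᵇ ℝ, ‖g‖ ≤ 2 * ‖f‖ ∧
        ‖f - outer lam φ g‖ ≤ (4 * n + 3) / (4 * n + 4) * ‖f‖ := by
  classical
  obtain ⟨D, hDc, hDd⟩ := TopologicalSpace.exists_countable_dense C(Fin n → I, ℝ)
  set ι := Fin (2 * n + 1) × {rs : ℚ × ℚ // 0 ≤ rs.1 ∧ rs.1 < rs.2 ∧ rs.2 ≤ 1}
  have hcoe : ∀ i : ι, ((i.2.1.1 : ℚ) : ℝ) ∈ Set.Icc (0 : ℝ) 1 ∧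
      ((i.2.1.2 : ℚ) : ℝ) ∈ Set.Icc (0 : ℝ) 1 ∧ ((i.2.1.1 : ℚ) : ℝ) < i.2.1.2 := fun i => by
    obtain ⟨h0, h1, h2⟩ := i.2.2
    exact ⟨⟨Rat.cast_nonneg.2 h0, by exact_mod_cast h1.le.trans h2⟩,
      ⟨Rat.cast_nonneg.2 (h0.trans h1.le), by exact_mod_cast h2⟩, Rat.cast_lt.2 h1⟩
  set U : ι → Set (Space n) := fun i =>
    {φ | φ.1 i.1 ⟨_, (hcoe i).1⟩ < φ.1 i.1 ⟨_, (hcoe i).2.1⟩}
  have hUo : ∀ i, IsOpen (U i) := fun i => by
    have hev : ∀ x, Continuous fun φ : Space n => φ.1 i.1 x := fun x =>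
      (continuous_eval_const x).comp ((continuous_apply i.1).comp continuous_subtype_val)
    exact isOpen_lt (hev _) (hev _)
  have hUd : ∀ i, Dense (U i) := fun i => Metric.dense_iff.2 fun φ r hr => by
    set ε := min (r / 2) 1
    have hε : 0 < ε := lt_min (half_pos hr) one_pos
    have hε1 : ε ≤ 1 := min_le_right _ _
    set φ' : Tuples n := fun q => (1 - ε) • φ.1 q + ε • ⟨fun x : I => (x : ℝ), by fun_prop⟩
    have happ : ∀ q x, φ' q x = (1 - ε) * φ.1 q x + ε * (x : ℝ) := fun q x => by simp [φ']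
    refine ⟨⟨φ', fun q => ⟨fun a b h => ?_, fun x => ?_⟩⟩, Metric.mem_ball.2 ?_, ?_⟩
    · simp only [happ]
      exact add_le_add (mul_le_mul_of_nonneg_left ((φ.2 q).1 h) (sub_nonneg.2 hε1))
        (mul_le_mul_of_nonneg_left h hε.le)
    · obtain ⟨h0, h1⟩ := (φ.2 q).2 x
      rw [happ]
      constructor <;> nlinarith [x.2.1, x.2.2]
    · refine lt_of_le_of_lt ((dist_pi_le_iff (half_pos hr).le).2 fun q =>
        (ContinuousMap.dist_le (half_pos hr).le).2 fun x => ?_) (half_lt_self hr)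
      obtain ⟨h0, h1⟩ := (φ.2 q).2 x
      rw [Real.dist_eq, happ, show (1 - ε) * φ.1 q x + ε * (x : ℝ) - φ.1 q x =
        ε * ((x : ℝ) - φ.1 q x) by ring, abs_mul, abs_of_pos hε]
      exact (mul_le_of_le_one_right hε.le
        (abs_le.2 ⟨by linarith [x.2.1], by linarith [x.2.2]⟩)).trans (min_le_left _ _)
    · show φ' i.1 _ < φ' i.1 _
      simp only [happ]
      exact add_lt_add_of_le_of_lt (mul_le_mul_of_nonneg_left ((φ.2 i.1).1 (hcoe i).2.2.le)
        (sub_nonneg.2 hε1)) (mul_lt_mul_of_pos_left (hcoe i).2.2 hε)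
  have : Countable {d : C(Fin n → I, ℝ) // d ∈ D ∧ d ≠ 0} :=
    (hDc.mono (Set.inter_subset_left (t := {d | d ≠ 0}))).to_subtype
  set V : ι ⊕ {d : C(Fin n → I, ℝ) // d ∈ D ∧ d ≠ 0} → Set (Space n) :=
    Sum.elim U fun d => good lam d.1
  have hVo : ∀ i, IsOpen (V i) := fun i => by
    rcases i with i | d
    exacts [hUo i, isOpen_good lam d.1]
  refine ⟨⋂ i, V i, IsGδ.iInter_of_isOpen hVo, dense_iInter_of_isOpen hVo fun i => ?_,
    fun φ hφ => ⟨fun q a b hab => ?_, fun f => ?_⟩⟩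
  · rcases i with i | d
    exacts [hUd i, dense_good hlam d.2.2]
  · obtain ⟨r, har, hrb⟩ := exists_rat_btwn (show (a : ℝ) < b from hab)
    obtain ⟨s, hrs, hsb⟩ := exists_rat_btwn hrb
    have hmem := Set.mem_iInter.1 hφ (Sum.inl (q, ⟨(r, s), Rat.cast_nonneg.1 (a.2.1.trans har.le),
      Rat.cast_lt.1 hrs, Rat.cast_le.1 ((hsb.le.trans b.2.2).trans_eq Rat.cast_one.symm)⟩))
    calc φ.1 q a ≤ φ.1 q ⟨r, _⟩ := (φ.2 q).1 har.le
      _ < φ.1 q ⟨s, _⟩ := hmem
      _ ≤ φ.1 q b := (φ.2 q).1 hsb.le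
  · rcases eq_or_ne f 0 with rfl | hf
    · have h0 : outer lam φ.1 (0 : ℝ →ᵇ ℝ) = 0 := ContinuousMap.ext fun x => by simp [outer_apply]
      exact ⟨0, by simp, le_of_eq (by simp [h0])⟩
    have hF := norm_pos_iff.2 hf
    set ε : ℝ := 1 / (8 * n + 8)
    have hε : 0 < ε := by positivity
    obtain ⟨d, hdist, hd⟩ := hDd.exists_dist_lt f (mul_pos hε hF)
    rw [dist_eq_norm] at hd
    have hε1 : ε < 1 := by
      rw [div_lt_one (by positivity)]
      linarith [(Nat.cast_nonneg n : (0 : ℝ) ≤ n)]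
    have hd0 : d ≠ 0 := fun h => by
      rw [h, sub_zero] at hd
      nlinarith
    obtain ⟨g, hg, hgd⟩ := Set.mem_iInter.1 hφ (Sum.inr ⟨d, hdist, hd0⟩)
    have hdn : ‖d‖ ≤ (1 + ε) * ‖f‖ := by
      have := norm_le_norm_add_norm_sub f d
      linarith
    refine ⟨g, hg.trans (hdn.trans (by nlinarith)), ?_⟩
    have hθ : theta n + 2 * ε ≤ (4 * n + 3) / (4 * n + 4) := le_of_eq (by
      simp only [theta, ε]
      field_simp
      ring)
    have hθ1 : theta n ≤ 1 := by
      rw [theta, div_le_one (by positivity)]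
      linarith
    have hθ0 : 0 ≤ theta n := by rw [theta]; positivity
    calc ‖f - outer lam φ g‖ ≤ ‖f - d‖ + ‖d - outer lam φ g‖ := norm_sub_le_norm_sub_add_norm_sub ..
      _ ≤ ε * ‖f‖ + theta n * ((1 + ε) * ‖f‖) :=
        add_le_add hd.le (hgd.le.trans (mul_le_mul_of_nonneg_left hdn hθ0))
      _ ≤ (theta n + 2 * ε) * ‖f‖ := by nlinarith [mul_nonneg hε.le hF.le]
      _ ≤ _ := mul_le_mul_of_nonneg_right hθ hF.le

/-- **Geometric iteration.** -/
theorem exists_outer_eq {lam : Fin n → ℝ} {φ : Tuples n} {ρ : ℝ} (hρ0 : 0 ≤ ρ) (hρ : ρ < 1)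
    (h : ∀ f : C(Fin n → I, ℝ), ∃ g : ℝ →ᵇ ℝ, ‖g‖ ≤ 2 * ‖f‖ ∧ ‖f - outer lam φ g‖ ≤ ρ * ‖f‖)
    (f : C(Fin n → I, ℝ)) : ∃ g : ℝ →ᵇ ℝ, outer lam φ g = f := by
  choose G hG hGf using h
  set F : ℕ → C(Fin n → I, ℝ) := fun k => Nat.rec f (fun _ F => F - outer lam φ (G F)) k
  have hFs : ∀ k, F (k + 1) = F k - outer lam φ (G (F k)) := fun k => rfl
  have hF : ∀ k, ‖F k‖ ≤ ρ ^ k * ‖f‖ := fun k => by
    induction k with
    | zero => rw [pow_zero, one_mul]; exact le_rfl
    | succ k ih =>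
      rw [hFs, pow_succ', mul_assoc]
      exact (hGf _).trans (mul_le_mul_of_nonneg_left ih hρ0)
  have hsum : Summable fun k => G (F k) :=
    Summable.of_norm_bounded (((summable_geometric_of_lt_one hρ0 hρ).mul_left (2 * ‖f‖))) fun k =>
      (hG _).trans (by nlinarith [hF k])
  refine ⟨∑' k, G (F k), ContinuousMap.ext fun x => ?_⟩
  have h1 : HasSum (fun k => outer lam φ (G (F k)) x) (outer lam φ (∑' k, G (F k)) x) := by
    simp only [outer_apply]
    exact hasSum_sum fun q _ => hsum.hasSum.map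
      (BoundedContinuousFunction.evalCLM ℝ (∑ p, lam p * φ q (x p)))
      (BoundedContinuousFunction.evalCLM ℝ (∑ p, lam p * φ q (x p))).continuous
  refine tendsto_nhds_unique h1.tendsto_sum_nat ?_
  have h2 : ∀ m, ∑ k ∈ range m, outer lam φ (G (F k)) x = f x - F m x := fun m => by
    induction m with
    | zero => simp [F]
    | succ m ih =>
      rw [sum_range_succ, ih, hFs, ContinuousMap.sub_apply]
      ring
  simp only [h2]
  have h3 : Tendsto (fun m => F m x) atTop (𝓝 0) := by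
    refine squeeze_zero_norm (fun m => ((F m).norm_coe_le_norm x).trans (hF m)) ?_
    simpa using (tendsto_pow_atTop_nhds_zero_of_lt_one hρ0 hρ).mul_const ‖f‖
  simpa using (tendsto_const_nhds (x := f x)).sub h3

/-- **Kahane's form of the theorem of Kolmogorov and Arnold.** -/
theorem exists_residual_exact {lam : Fin n → ℝ} (hlam : Independent lam) :
    ∃ S : Set (Space n), IsGδ S ∧ Dense S ∧ ∀ φ ∈ S, (∀ q, StrictMono (φ.1 q)) ∧
      ∀ f : C(Fin n → I, ℝ), ∃ g : ℝ →ᵇ ℝ, ∀ x, ∑ q, g (∑ p, lam p * φ.1 q (x p)) = f x := by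
  obtain ⟨S, hS, hd, h⟩ := exists_residual hlam
  refine ⟨S, hS, hd, fun φ hφ => ⟨(h φ hφ).1, fun f => ?_⟩⟩
  obtain ⟨g, hg⟩ := exists_outer_eq (ρ := (4 * n + 3) / (4 * n + 4)) (by positivity)
    (by rw [div_lt_one (by positivity)]; linarith) (h φ hφ).2 f
  exact ⟨g, fun x => by rw [← outer_apply, hg]⟩

/-- **The theorem of Kolmogorov and Arnold.** -/
theorem exists_inner (n : ℕ) : ∃ (lam : Fin n → ℝ) (φ : Fin (2 * n + 1) → C(I, ℝ)),
    (∀ p, 0 < lam p) ∧ (∀ q, StrictMono (φ q) ∧ ∀ x, φ q x ∈ Set.Icc (0 : ℝ) 1) ∧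
      ∀ f : C(Fin n → I, ℝ), ∃ g : ℝ →ᵇ ℝ, ∀ x, ∑ q, g (∑ p, lam p * φ q (x p)) = f x := by
  obtain ⟨lam, hpos, hlam⟩ := exists_independent n
  obtain ⟨S, -, hd, h⟩ := exists_residual_exact hlam
  have : Nonempty (Space n) :=
    ⟨⟨fun _ => 0, fun q => ⟨monotone_const, fun x => ⟨le_rfl, zero_le_one⟩⟩⟩⟩
  obtain ⟨φ, hφ⟩ := hd.nonempty
  exact ⟨lam, φ.1, hpos, fun q => ⟨(h φ hφ).1 q, (φ.2 q).2⟩, (h φ hφ).2⟩

end FA.Superposition

end
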